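import Fermat.Agent.S30.Betti.Main

/-!
# `H_ℤ = Hom_par(Γ₀(N), ℤ)` is a free `ℤ`-module of rank `2 · dim S₂(Γ₀(N))`
-/

set_option autoImplicit false

open CongruenceSubgroup UpperHalfPlane ModularCurve ModularCurve.Period
open scoped MatrixGroups

namespace Fermat.Agent.S30.Betti

/-- A homomorphism vanishing on generators vanishes. -/
theorem hom_eq_zero_of_generators {G : Type*} [Group G] {A : Type*} [AddCommGroup A] (S : Set G)
    (hS : Subgroup.closure S = ⊤) (ψ : Additive G →+ A)
    (h : ∀ s ∈ S, ψ (Additive.ofMul s) = 0) : ψ = 0 := by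
  refine AddMonoidHom.ext fun g => ?_
  have hg : Additive.toMul g ∈ Subgroup.closure S := hS ▸ Subgroup.mem_top _
  have key : ∀ x : G, x ∈ Subgroup.closure S → ψ (Additive.ofMul x) = 0 := by
    intro x hx
    induction hx using Subgroup.closure_induction with
    | mem x hx => exact h x hx
    | one => rw [ofMul_one, map_zero]
    | mul x y _ _ hx hy => rw [ofMul_mul, map_add, hx, hy, add_zero]
    | inv x _ hx => rw [ofMul_inv, map_neg, hx, neg_zero]
  exact key _ hg

/-- Integral homomorphisms that are `ℤ`-linearly independent are `ℝ`-linearly independent. -/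
theorem linearIndependent_real_of_int {G : Type*} [AddGroup G] {ι : Type*} [Fintype ι]
    (h : ι → G →+ ℤ) (hli : LinearIndependent ℤ h) :
    LinearIndependent ℝ (fun i => (Int.castAddHom ℝ).comp (h i)) := by
  classical
  rw [Fintype.linearIndependent_iff]
  intro c hc i
  rw [← Module.forall_dual_apply_eq_zero_iff ℚ (c i)]
  intro lam
  -- the rational relation
  have hrel : ∀ g : G, ∑ j, lam (c j) * (h j g : ℚ) = 0 := by
    intro g
    have h1 : ∑ j, c j * ((h j g : ℤ) : ℝ) = 0 := by
      have := DFunLike.congr_fun hc g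
      rw [AddMonoidHom.finsetSum_apply] at this
      exact this
    have h2 := congrArg lam h1
    rw [map_sum, map_zero] at h2
    rw [← h2]
    refine Finset.sum_congr rfl fun j _ => ?_
    have : c j * ((h j g : ℤ) : ℝ) = ((h j g : ℤ) : ℚ) • c j := by
      rw [Rat.smul_def]
      push_cast
      ring
    rw [this, map_smul, smul_eq_mul, mul_comm]
  -- clear denominators
  let D : ℕ := ∏ j, (lam (c j)).den
  have hD : 0 < D := Finset.prod_pos fun j _ => Rat.den_pos _
  have hn : ∀ j, ∃ n : ℤ, lam (c j) * (D : ℚ) = n := by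
    intro j
    obtain ⟨k, hk⟩ : (lam (c j)).den ∣ D := Finset.dvd_prod_of_mem _ (Finset.mem_univ j)
    refine ⟨(lam (c j)).num * k, ?_⟩
    rw [hk]
    push_cast
    rw [← mul_assoc, Rat.mul_den_eq_num]
  choose n hn using hn
  have hint : ∑ j, n j • h j = 0 := by
    refine AddMonoidHom.ext fun g => ?_
    rw [AddMonoidHom.finsetSum_apply]
    have h3 : ∑ j, (n j : ℚ) * (h j g : ℚ) = (D : ℚ) * ∑ j, lam (c j) * (h j g : ℚ) := by
      rw [Finset.mul_sum]
      refine Finset.sum_congr rfl fun j _ => ?_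
      rw [← hn j]
      ring
    have : ((∑ j, n j * h j g : ℤ) : ℚ) = 0 := by
      push_cast
      rw [h3, hrel g, mul_zero]
    have e2 : ∑ j, (n j • h j) g = ∑ j, n j * h j g :=
      Finset.sum_congr rfl fun j _ => by rw [AddMonoidHom.smul_apply, smul_eq_mul]
    rw [e2]
    exact_mod_cast this
  have h0 := Fintype.linearIndependent_iff.mp hli n hint i
  have h4 := hn i
  rw [h0] at h4
  have hDq : (D : ℚ) ≠ 0 := by exact_mod_cast hD.ne'
  simpa [hDq] using h4

variable (N : ℕ) [NeZero N]

instance parabolicHoms_isAddTorsionFree : IsAddTorsionFree (parabolicHoms ℤ (Gamma0 N) ℤ) where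
  nsmul_right_injective n hn a b hab := by
    apply Subtype.ext
    refine AddMonoidHom.ext fun γ => ?_
    have hab' : n • a = n • b := hab
    have e : ∀ x : parabolicHoms ℤ (Gamma0 N) ℤ,
        ((n • x : parabolicHoms ℤ (Gamma0 N) ℤ) : Additive (Gamma0 N) →+ ℤ) γ =
          (n : ℤ) * (x : Additive (Gamma0 N) →+ ℤ) γ := by
      intro x
      rw [Submodule.coe_smul_of_tower, AddMonoidHom.coe_smul, Pi.smul_apply, nsmul_eq_mul]
    have hn' : (n : ℤ) ≠ 0 := by exact_mod_cast hn
    have h2 : (n : ℤ) * (a : Additive (Gamma0 N) →+ ℤ) γ = (n : ℤ) * (b : Additive (Gamma0 N) →+ ℤ) γ := by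
      rw [← e a, ← e b, hab']
    exact mul_left_cancel₀ hn' h2

instance parabolicHoms_finite : Module.Finite ℤ (parabolicHoms ℤ (Gamma0 N) ℤ) := by
  obtain ⟨S, hS, hSfin⟩ := Group.fg_iff.mp (inferInstance : Group.FG (Gamma0 N))
  have : Finite S := hSfin.to_subtype
  let ev : parabolicHoms ℤ (Gamma0 N) ℤ →ₗ[ℤ] (S → ℤ) :=
    { toFun := fun ψ s => (ψ : Additive (Gamma0 N) →+ ℤ) (Additive.ofMul s.1)
      map_add' := fun _ _ => rfl
      map_smul' := fun _ _ => rfl }
  refine Module.Finite.of_injective ev ?_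
  rw [injective_iff_map_eq_zero]
  intro ψ hψ
  apply Subtype.ext
  refine hom_eq_zero_of_generators S hS _ fun s hs => ?_
  exact congrFun hψ ⟨s, hs⟩

instance parabolicHoms_free : Module.Free ℤ (parabolicHoms ℤ (Gamma0 N) ℤ) :=
  Module.free_of_finite_type_torsion_free'

/-- The cusp forms attached to a family of integral parabolic homomorphisms. -/
theorem rePer_latEquiv_symm (h : parabolicHoms ℤ (Gamma0 N) ℤ) :
    rePer N ((latEquiv N).symm h : perLattice N) =
      (Int.castAddHom ℝ).comp (h : Additive (Gamma0 N) →+ ℤ) := by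
  rw [← castR_latEquiv, LinearEquiv.apply_symm_apply]

theorem real_smul_eq (r : ℝ) (f : CuspForm (Gamma0 N) 2) : r • f = (r : ℂ) • f := rfl

/-- **Rank of the Betti lattice.** -/
theorem finrank_parabolicHoms :
    Module.finrank ℤ (parabolicHoms ℤ (Gamma0 N) ℤ) =
      2 * Module.finrank ℂ (CuspForm (Gamma0 N) 2) := by
  classical
  let b := Module.Free.chooseBasis ℤ (parabolicHoms ℤ (Gamma0 N) ℤ)
  let F : Module.Free.ChooseBasisIndex ℤ (parabolicHoms ℤ (Gamma0 N) ℤ) → CuspForm (Gamma0 N) 2 :=
    fun i => ((latEquiv N).symm (b i) : perLattice N)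
  have hF : ∀ i, rePer N (F i) = (Int.castAddHom ℝ).comp (b i : Additive (Gamma0 N) →+ ℤ) :=
    fun i => rePer_latEquiv_symm N (b i)
  have hrePer_comb : ∀ c : Module.Free.ChooseBasisIndex ℤ (parabolicHoms ℤ (Gamma0 N) ℤ) → ℝ,
      rePer N (∑ i, c i • F i) =
        ∑ i, c i • (Int.castAddHom ℝ).comp (b i : Additive (Gamma0 N) →+ ℤ) := by
    intro c
    rw [rePer_sum]
    refine Finset.sum_congr rfl fun i _ => ?_
    rw [real_smul_eq, rePer_real_smul, hF]
  -- linear independence
  have hli : LinearIndependent ℝ F := by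
    rw [Fintype.linearIndependent_iff]
    intro c hc
    have h1 := hrePer_comb c
    rw [hc, rePer_zero] at h1
    have hbli : LinearIndependent ℤ (fun i => (b i : Additive (Gamma0 N) →+ ℤ)) := by
      have := b.linearIndependent
      exact this.map' (parabolicHoms ℤ (Gamma0 N) ℤ).subtype (Submodule.ker_subtype _)
    exact Fintype.linearIndependent_iff.mp (linearIndependent_real_of_int _ hbli) c h1.symm
  -- spanning
  have hspan : ⊤ ≤ Submodule.span ℝ (Set.range F) := by
    intro f _
    obtain ⟨n, c, h, hpar, hψ⟩ := real_hom_decomp (rePer N f)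
    have hp : ∀ j, IsParabolicHom (Gamma0 N) (h j) := fun j γ hγ =>
      hpar j _ (rePer_parabolic N f γ hγ)
    -- the forms attached to `h j`
    let g : Fin n → CuspForm (Gamma0 N) 2 := fun j =>
      ((latEquiv N).symm ⟨h j, hp j⟩ : perLattice N)
    have hg : ∀ j, rePer N (g j) = (Int.castAddHom ℝ).comp (h j) := fun j =>
      rePer_latEquiv_symm N ⟨h j, hp j⟩
    have hf : f = ∑ j, c j • g j := by
      apply rePer_injective N
      rw [rePer_sum, hψ]
      refine Finset.sum_congr rfl fun j _ => ?_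
      rw [real_smul_eq, rePer_real_smul, hg]
    rw [hf]
    refine Submodule.sum_mem _ fun j _ => Submodule.smul_mem _ _ ?_
    -- `g j` is an integral combination of the `F i`
    have hgj : g j = ∑ i, (b.repr ⟨h j, hp j⟩ i) • F i := by
      have h1 := congrArg (latEquiv N).symm (b.sum_repr ⟨h j, hp j⟩)
      rw [map_sum] at h1
      have h2 := congrArg (Subtype.val : perLattice N → CuspForm (Gamma0 N) 2) h1
      rw [AddSubmonoidClass.coe_finsetSum] at h2
      rw [show g j = ((latEquiv N).symm ⟨h j, hp j⟩ : perLattice N) from rfl, ← h2]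
      refine Finset.sum_congr rfl fun i _ => ?_
      rw [map_zsmul]
      rfl
    rw [hgj]
    refine Submodule.sum_mem _ fun i _ => ?_
    rw [← Int.cast_smul_eq_zsmul ℝ]
    exact Submodule.smul_mem _ _ (Submodule.subset_span ⟨i, rfl⟩)
  let B : Module.Basis _ ℝ (CuspForm (Gamma0 N) 2) := Module.Basis.mk hli hspan
  rw [← finrank_real_of_complex, Module.finrank_eq_card_basis B,
    Module.finrank_eq_card_chooseBasisIndex]

end Fermat.Agent.S30.Betti
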