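import Fermat.Agent.S30.Betti.PeriodHecke

/-!
# Hecke operators on `Hom(Γ₀(N), B)`

For a prime `ℓ ∤ N` and the Prelude coset representatives `heckeRep ℓ x` (`x ∈ ℙ¹(𝔽_ℓ)`),
`heckeRep ℓ x * γ = γ'_x * heckeRep ℓ (π x)` with unique `γ'_x ∈ Γ₀(N)`; the Hecke operator on
homomorphisms `ψ : Γ₀(N) → B` is `(T ψ)(γ) = ∑ x, ψ (γ'_x)`.
-/

set_option autoImplicit false

open CongruenceSubgroup UpperHalfPlane ModularCurve ModularCurve.Period
open scoped MatrixGroups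
open P2MW.S_ModularForm_heckeT_slash_eq_self_of_mem_Gamma0.ModularForm.HeckeSlashInvariance

namespace Fermat.Agent.S30.Betti

/-- Integer form of a relation between real matrices. -/
theorem int_rel_of_real_rel {ℓ : ℕ} (hℓ : ℓ ≠ 0) (g₁ g₂ : SL(2, ℤ)) (y₁ y₂ : OnePoint (ZMod ℓ))
    (h : Matrix.SpecialLinearGroup.mapGL ℝ g₁ * heckeRep ℓ y₁ =
      Matrix.SpecialLinearGroup.mapGL ℝ g₂ * heckeRep ℓ y₂) (i j : Fin 2) :
    g₁ i 0 * Fermat.Agent.S22.heckeRepInt ℓ y₁ 0 j + g₁ i 1 * Fermat.Agent.S22.heckeRepInt ℓ y₁ 1 j =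
      g₂ i 0 * Fermat.Agent.S22.heckeRepInt ℓ y₂ 0 j + g₂ i 1 * Fermat.Agent.S22.heckeRepInt ℓ y₂ 1 j := by
  have h1 := congrArg (fun M : GL (Fin 2) ℝ => M.val i j) h
  simp only [Units.val_mul, Matrix.mul_apply, Fin.sum_univ_two,
    Fermat.Agent.S22.heckeRep_val_eq hℓ] at h1
  have h2 : ∀ (g : SL(2, ℤ)) (a b : Fin 2),
      (Matrix.SpecialLinearGroup.mapGL ℝ g).val a b = ((g a b : ℤ) : ℝ) := by
    intro g a b
    rw [Matrix.SpecialLinearGroup.mapGL_coe_matrix]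
    rfl
  simp only [h2] at h1
  exact_mod_cast h1

variable (ℓ : ℕ) [Fact ℓ.Prime]

/-- Uniqueness of the coset decomposition `g · heckeRep y`. -/
theorem heckeRep_rel_unique (g₁ g₂ : SL(2, ℤ)) (y₁ y₂ : OnePoint (ZMod ℓ))
    (h : Matrix.SpecialLinearGroup.mapGL ℝ g₁ * heckeRep ℓ y₁ =
      Matrix.SpecialLinearGroup.mapGL ℝ g₂ * heckeRep ℓ y₂) :
    g₁ = g₂ ∧ y₁ = y₂ := by
  have hℓ : ℓ ≠ 0 := (Fact.out : ℓ.Prime).ne_zero
  have hℓ2 : (2 : ℤ) ≤ ℓ := by exact_mod_cast (Fact.out : ℓ.Prime).two_le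
  have hℓZ : (ℓ : ℤ) ≠ 0 := by exact_mod_cast hℓ
  have hint := int_rel_of_real_rel hℓ g₁ g₂ y₁ y₂ h
  have hd₁ : g₁ 0 0 * g₁ 1 1 - g₁ 0 1 * g₁ 1 0 = 1 := by
    have := g₁.det_coe
    rwa [Matrix.det_fin_two] at this
  have hd₂ : g₂ 0 0 * g₂ 1 1 - g₂ 0 1 * g₂ 1 0 = 1 := by
    have := g₂.det_coe
    rwa [Matrix.det_fin_two] at this
  have h00 := hint 0 0
  have h01 := hint 0 1
  have h10 := hint 1 0
  have h11 := hint 1 1
  have hext : (g₁ 0 0 = g₂ 0 0 ∧ g₁ 0 1 = g₂ 0 1 ∧ g₁ 1 0 = g₂ 1 0 ∧ g₁ 1 1 = g₂ 1 1) → g₁ = g₂ := by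
    rintro ⟨e00, e01, e10, e11⟩
    ext i j
    fin_cases i <;> fin_cases j <;> assumption
  induction y₁ using OnePoint.rec with
  | infty =>
    induction y₂ using OnePoint.rec with
    | infty =>
      simp only [Fermat.Agent.S22.heckeRepInt, OnePoint.elim_infty, Matrix.of_apply,
        Matrix.cons_val', Matrix.cons_val_zero, Matrix.cons_val_one, Matrix.cons_val_fin_one,
        mul_zero, mul_one, add_zero, zero_add] at h00 h01 h10 h11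
      exact ⟨hext ⟨mul_right_cancel₀ hℓZ h00, h01, mul_right_cancel₀ hℓZ h10, h11⟩, rfl⟩
    | coe j' =>
      exfalso
      simp only [Fermat.Agent.S22.heckeRepInt, OnePoint.elim_infty, OnePoint.elim_some,
        Matrix.of_apply, Matrix.cons_val', Matrix.cons_val_zero, Matrix.cons_val_one,
        Matrix.cons_val_fin_one, mul_zero, mul_one, add_zero, zero_add] at h00 h01 h10 h11
      -- g₂ i 0 = g₁ i 0 * ℓ, so ℓ ∣ det g₂ = 1
      have : (ℓ : ℤ) ∣ 1 := by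
        rw [← hd₂, ← h00, ← h10]
        exact ⟨g₁ 0 0 * g₂ 1 1 - g₂ 0 1 * g₁ 1 0, by ring⟩
      have := Int.le_of_dvd one_pos this
      omega
  | coe j =>
    induction y₂ using OnePoint.rec with
    | infty =>
      exfalso
      simp only [Fermat.Agent.S22.heckeRepInt, OnePoint.elim_infty, OnePoint.elim_some,
        Matrix.of_apply, Matrix.cons_val', Matrix.cons_val_zero, Matrix.cons_val_one,
        Matrix.cons_val_fin_one, mul_zero, mul_one, add_zero, zero_add] at h00 h01 h10 h11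
      have : (ℓ : ℤ) ∣ 1 := by
        rw [← hd₁, h00, h10]
        exact ⟨g₂ 0 0 * g₁ 1 1 - g₁ 0 1 * g₂ 1 0, by ring⟩
      have := Int.le_of_dvd one_pos this
      omega
    | coe j' =>
      simp only [Fermat.Agent.S22.heckeRepInt, OnePoint.elim_some,
        Matrix.of_apply, Matrix.cons_val', Matrix.cons_val_zero, Matrix.cons_val_one,
        Matrix.cons_val_fin_one, mul_zero, mul_one, add_zero, zero_add] at h00 h01 h10 h11
      -- ℓ ∣ j - j'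
      have hdvd : (ℓ : ℤ) ∣ (j.val : ℤ) - (j'.val : ℤ) := by
        have e : ((j.val : ℤ) - (j'.val : ℤ)) =
            ((j.val : ℤ) - (j'.val : ℤ)) * (g₁ 0 0 * g₁ 1 1 - g₁ 0 1 * g₁ 1 0) := by
          rw [hd₁, mul_one]
        rw [e]
        refine ⟨(g₂ 0 1 - g₁ 0 1) * g₁ 1 1 - g₁ 0 1 * (g₂ 1 1 - g₁ 1 1), ?_⟩
        linear_combination (g₁ 1 1) * h01 - (g₁ 0 1) * h11 - (j'.val : ℤ) * (g₁ 1 1) * h00
          + (j'.val : ℤ) * (g₁ 0 1) * h10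
      have hj : j.val < ℓ := ZMod.val_lt j
      have hj' : j'.val < ℓ := ZMod.val_lt j'
      have hjj : (j.val : ℤ) = (j'.val : ℤ) := by
        obtain ⟨c, hc⟩ := hdvd
        have hc0 : c = 0 := by
          by_contra hne
          rcases lt_or_gt_of_ne hne with hlt | hgt
          · have : (ℓ : ℤ) * c ≤ -(ℓ : ℤ) := by nlinarith
            omega
          · have : (ℓ : ℤ) ≤ (ℓ : ℤ) * c := by nlinarith
            omega
        rw [hc0, mul_zero] at hc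
        omega
      have hjeq : j = j' := ZMod.val_injective ℓ (by exact_mod_cast hjj)
      subst hjeq
      refine ⟨hext ⟨h00, ?_, h10, ?_⟩, rfl⟩
      · have : g₁ 0 1 * (ℓ : ℤ) = g₂ 0 1 * (ℓ : ℤ) := by linear_combination h01 - (j.val : ℤ) * h00
        exact mul_right_cancel₀ hℓZ this
      · have : g₁ 1 1 * (ℓ : ℤ) = g₂ 1 1 * (ℓ : ℤ) := by linear_combination h11 - (j.val : ℤ) * h10
        exact mul_right_cancel₀ hℓZ this

variable (N : ℕ)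

theorem gamma0_dvd (γ : Gamma0 N) : (N : ℤ) ∣ (γ : SL(2, ℤ)) 1 0 :=
  (ZMod.intCast_zmod_eq_zero_iff_dvd _ _).mp (Gamma0_mem.mp γ.2)

variable {ℓ} in
/-- The element `γ'_x ∈ Γ₀(N)` with `heckeRep x * γ = γ'_x * heckeRep (π x)`. -/
noncomputable def conjRep (hℓN : ¬ ℓ ∣ N) (γ : Gamma0 N) (x : OnePoint (ZMod ℓ)) : Gamma0 N :=
  ⟨Classical.choose (heckeRep_mul hℓN (γ : SL(2, ℤ)) (gamma0_dvd N γ) x),
    Gamma0_mem.mpr ((ZMod.intCast_zmod_eq_zero_iff_dvd _ _).mpr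
      (Classical.choose_spec (heckeRep_mul hℓN (γ : SL(2, ℤ)) (gamma0_dvd N γ) x)).1)⟩

variable {ℓ} in
theorem conjRep_spec (hℓN : ¬ ℓ ∣ N) (γ : Gamma0 N) (x : OnePoint (ZMod ℓ)) :
    heckeRep ℓ x * Matrix.SpecialLinearGroup.mapGL ℝ (γ : SL(2, ℤ)) =
      Matrix.SpecialLinearGroup.mapGL ℝ (conjRep N hℓN γ x : SL(2, ℤ)) *
        heckeRep ℓ (redMatrix ℓ (γ : SL(2, ℤ)) • x) :=
  (Classical.choose_spec (heckeRep_mul hℓN (γ : SL(2, ℤ)) (gamma0_dvd N γ) x)).2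

variable {ℓ} in
/-- Any decomposition `heckeRep x * γ = γ' * heckeRep y` has `γ' = conjRep γ x`. -/
theorem conjRep_eq_of_rel (hℓN : ¬ ℓ ∣ N) (γ : Gamma0 N) (x y : OnePoint (ZMod ℓ)) (γ' : Gamma0 N)
    (h : heckeRep ℓ x * Matrix.SpecialLinearGroup.mapGL ℝ (γ : SL(2, ℤ)) =
      Matrix.SpecialLinearGroup.mapGL ℝ (γ' : SL(2, ℤ)) * heckeRep ℓ y) :
    γ' = conjRep N hℓN γ x ∧ y = redMatrix ℓ (γ : SL(2, ℤ)) • x := by
  have h2 := heckeRep_rel_unique ℓ _ _ _ _ (h.symm.trans (conjRep_spec N hℓN γ x))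
  exact ⟨Subtype.ext h2.1, h2.2⟩

variable {ℓ} in
theorem conjRep_mul (hℓN : ¬ ℓ ∣ N) (γ₁ γ₂ : Gamma0 N) (x : OnePoint (ZMod ℓ)) :
    conjRep N hℓN (γ₁ * γ₂) x =
      conjRep N hℓN γ₁ x * conjRep N hℓN γ₂ (redMatrix ℓ (γ₁ : SL(2, ℤ)) • x) := by
  refine ((conjRep_eq_of_rel N hℓN (γ₁ * γ₂) x
    (redMatrix ℓ (γ₂ : SL(2, ℤ)) • (redMatrix ℓ (γ₁ : SL(2, ℤ)) • x)) _ ?_).1).symm
  rw [Subgroup.coe_mul, map_mul, ← mul_assoc, conjRep_spec N hℓN γ₁ x, mul_assoc,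
    conjRep_spec N hℓN γ₂, ← mul_assoc, Subgroup.coe_mul, map_mul]

variable {ℓ} in
theorem redMatrix_mul_smul (hℓN : ¬ ℓ ∣ N) (γ₁ γ₂ : Gamma0 N) (x : OnePoint (ZMod ℓ)) :
    redMatrix ℓ ((γ₁ * γ₂ : Gamma0 N) : SL(2, ℤ)) • x =
      redMatrix ℓ (γ₂ : SL(2, ℤ)) • (redMatrix ℓ (γ₁ : SL(2, ℤ)) • x) := by
  refine ((conjRep_eq_of_rel N hℓN (γ₁ * γ₂) x
    (redMatrix ℓ (γ₂ : SL(2, ℤ)) • (redMatrix ℓ (γ₁ : SL(2, ℤ)) • x))
    (conjRep N hℓN γ₁ x * conjRep N hℓN γ₂ (redMatrix ℓ (γ₁ : SL(2, ℤ)) • x)) ?_).2).symm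
  rw [Subgroup.coe_mul, map_mul, ← mul_assoc, conjRep_spec N hℓN γ₁ x, mul_assoc,
    conjRep_spec N hℓN γ₂, ← mul_assoc, Subgroup.coe_mul, map_mul]

variable {ℓ}
variable {B : Type*} [AddCommGroup B]

/-- The Hecke operator `T_ℓ` on `Hom(Γ₀(N), B)`. -/
noncomputable def heckeHomFun (hℓN : ¬ ℓ ∣ N) (ψ : Additive (Gamma0 N) →+ B) :
    Additive (Gamma0 N) →+ B where
  toFun γ := ∑ x : OnePoint (ZMod ℓ), ψ (Additive.ofMul (conjRep N hℓN (Additive.toMul γ) x))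
  map_zero' := by
    show ∑ x : OnePoint (ZMod ℓ), ψ (Additive.ofMul (conjRep N hℓN (1 : Gamma0 N) x)) = 0
    refine Finset.sum_eq_zero fun x _ => ?_
    have h1 := conjRep_mul N hℓN 1 1 x
    have h2 : redMatrix ℓ ((1 : Gamma0 N) : SL(2, ℤ)) • x = x := by
      have := (conjRep_eq_of_rel N hℓN 1 x x 1 (by simp)).2
      exact this.symm
    rw [h2, mul_one] at h1
    have h3 : conjRep N hℓN (1 : Gamma0 N) x = 1 := by
      have := congrArg (fun g => (conjRep N hℓN (1 : Gamma0 N) x)⁻¹ * g) h1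
      simpa using this.symm
    rw [h3]
    exact map_zero ψ
  map_add' γ₁ γ₂ := by
    show ∑ x : OnePoint (ZMod ℓ), ψ (Additive.ofMul (conjRep N hℓN
        (Additive.toMul γ₁ * Additive.toMul γ₂) x)) =
      ∑ x : OnePoint (ZMod ℓ), ψ (Additive.ofMul (conjRep N hℓN (Additive.toMul γ₁) x)) +
      ∑ x : OnePoint (ZMod ℓ), ψ (Additive.ofMul (conjRep N hℓN (Additive.toMul γ₂) x))
    simp only [conjRep_mul, ofMul_mul, map_add, Finset.sum_add_distrib]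
    congr 1
    exact Equiv.sum_comp (MulAction.toPerm (redMatrix ℓ ((Additive.toMul γ₁ : Gamma0 N) : SL(2, ℤ))))
      (fun x => ψ (Additive.ofMul (conjRep N hℓN (Additive.toMul γ₂) x)))

/-- The Hecke operator `T_ℓ` on `Hom(Γ₀(N), B)` as an additive map. -/
noncomputable def heckeHom (hℓN : ¬ ℓ ∣ N) (B : Type*) [AddCommGroup B] :
    (Additive (Gamma0 N) →+ B) →+ (Additive (Gamma0 N) →+ B) where
  toFun ψ := heckeHomFun N hℓN ψ
  map_zero' := by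
    refine AddMonoidHom.ext fun γ => ?_
    show ∑ x : OnePoint (ZMod ℓ), (0 : Additive (Gamma0 N) →+ B) _ = 0
    simp
  map_add' ψ₁ ψ₂ := by
    refine AddMonoidHom.ext fun γ => ?_
    show ∑ x : OnePoint (ZMod ℓ), (ψ₁ + ψ₂) _ = ∑ x : OnePoint (ZMod ℓ), ψ₁ _ + ∑ x : OnePoint (ZMod ℓ), ψ₂ _
    simp [Finset.sum_add_distrib]

theorem heckeHom_apply (hℓN : ¬ ℓ ∣ N) (ψ : Additive (Gamma0 N) →+ B) (γ : Gamma0 N) :
    heckeHom N hℓN B ψ (Additive.ofMul γ) =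
      ∑ x : OnePoint (ZMod ℓ), ψ (Additive.ofMul (conjRep N hℓN γ x)) := rfl

/-- The Hecke operator can be computed with any system of solutions of the coset relation. -/
theorem heckeHom_apply_of_rel (hℓN : ¬ ℓ ∣ N) (ψ : Additive (Gamma0 N) →+ B) (γ : Gamma0 N)
    (γ' : OnePoint (ZMod ℓ) → Gamma0 N) (y : OnePoint (ZMod ℓ) → OnePoint (ZMod ℓ))
    (hmul : ∀ x, heckeRep ℓ x * Matrix.SpecialLinearGroup.mapGL ℝ (γ : SL(2, ℤ)) =
      Matrix.SpecialLinearGroup.mapGL ℝ (γ' x : SL(2, ℤ)) * heckeRep ℓ (y x)) :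
    heckeHom N hℓN B ψ (Additive.ofMul γ) = ∑ x : OnePoint (ZMod ℓ), ψ (Additive.ofMul (γ' x)) := by
  rw [heckeHom_apply]
  refine Finset.sum_congr rfl fun x _ => ?_
  rw [(conjRep_eq_of_rel N hℓN γ x (y x) (γ' x) (hmul x)).1]

/-- Functoriality in the coefficient group. -/
theorem heckeHom_comp {B' : Type*} [AddCommGroup B'] (hℓN : ¬ ℓ ∣ N) (φ : B →+ B')
    (ψ : Additive (Gamma0 N) →+ B) :
    heckeHom N hℓN B' (φ.comp ψ) = φ.comp (heckeHom N hℓN B ψ) := by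
  refine AddMonoidHom.ext fun γ => ?_
  show ∑ x : OnePoint (ZMod ℓ), φ (ψ _) = φ (∑ x : OnePoint (ZMod ℓ), ψ _)
  rw [map_sum]

/-- Period map intertwines the Hecke operators. -/
theorem heckeHom_periodMap [NeZero N] (hℓN : ¬ ℓ ∣ N) (f : CuspForm (Gamma0 N) 2) :
    heckeHom N hℓN ℂ (periodMap N f) =
      periodMap N (CuspForm.heckeTLin 2 (Fact.out : ℓ.Prime) hℓN f) := by
  refine AddMonoidHom.ext fun γ => ?_
  have h := periodMap_heckeT N (Fact.out : ℓ.Prime) hℓN f (Additive.toMul γ)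
    (conjRep N hℓN (Additive.toMul γ))
    (MulAction.toPerm (redMatrix ℓ ((Additive.toMul γ : Gamma0 N) : SL(2, ℤ))))
    (fun x => conjRep_spec N hℓN (Additive.toMul γ) x)
  exact h.symm

end Fermat.Agent.S30.Betti
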