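import Fermat.Agent.S30.Betti.HeckeHom
import Fermat.Agent.S21.Hodge
import Fermat.Agent.S21.Parabolic
import Fermat.Agent.S21.Injective

/-!
# The Betti lattice `H_ℤ = Hom_par(Γ₀(N), ℤ)` as a faithful module over the Hecke algebra

`rePer f = Re ∘ periodMap N f` is an additive bijection from `S₂(Γ₀(N))` onto the real parabolic
homomorphisms (S21).  The cusp forms with integral real periods form a lattice `perLattice N`,
stable under all Hecke operators `T_ℓ`, `U_q`, and `perLattice N ≃+ H_ℤ`.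
-/

set_option autoImplicit false

open CongruenceSubgroup UpperHalfPlane ModularCurve ModularCurve.Period
open scoped MatrixGroups
open P2MW.S_ModularForm_heckeT_slash_eq_self_of_mem_Gamma0.ModularForm.HeckeSlashInvariance

namespace Fermat.Agent.S30.Betti

variable (N : ℕ) [NeZero N]

/-- The period map as a `ℂ`-linear map. -/
noncomputable def perLin : CuspForm (Gamma0 N) 2 →ₗ[ℂ] (Additive (Gamma0 N) →+ ℂ) where
  toFun := periodMap N
  map_add' := Fermat.Agent.S21.periodMap_add (Fermat.Agent.S21.exists_primitive N)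
  map_smul' := Fermat.Agent.S21.periodMap_smul (Fermat.Agent.S21.exists_primitive N)

theorem perLin_apply (f : CuspForm (Gamma0 N) 2) : perLin N f = periodMap N f := rfl

/-- The real part of the period homomorphism. -/
noncomputable def rePer (f : CuspForm (Gamma0 N) 2) : Additive (Gamma0 N) →+ ℝ :=
  Complex.reAddGroupHom.comp (periodMap N f)

theorem rePer_apply (f : CuspForm (Gamma0 N) 2) (γ : Additive (Gamma0 N)) :
    rePer N f γ = (periodMap N f γ).re := rfl

theorem rePer_add (f g : CuspForm (Gamma0 N) 2) : rePer N (f + g) = rePer N f + rePer N g := by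
  refine AddMonoidHom.ext fun γ => ?_
  rw [rePer_apply, ← perLin_apply, map_add, AddMonoidHom.add_apply, AddMonoidHom.add_apply,
    Complex.add_re]
  rfl

theorem rePer_zero : rePer N 0 = 0 := by
  refine AddMonoidHom.ext fun γ => ?_
  rw [rePer_apply, ← perLin_apply, map_zero]
  rfl

theorem rePer_neg (f : CuspForm (Gamma0 N) 2) : rePer N (-f) = -rePer N f := by
  refine AddMonoidHom.ext fun γ => ?_
  rw [rePer_apply, ← perLin_apply, map_neg, AddMonoidHom.neg_apply, AddMonoidHom.neg_apply,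
    Complex.neg_re]
  rfl

theorem rePer_real_smul (r : ℝ) (f : CuspForm (Gamma0 N) 2) :
    rePer N ((r : ℂ) • f) = r • rePer N f := by
  refine AddMonoidHom.ext fun γ => ?_
  rw [rePer_apply, ← perLin_apply, map_smul, AddMonoidHom.smul_apply, AddMonoidHom.smul_apply,
    smul_eq_mul, Complex.re_ofReal_mul, perLin_apply, smul_eq_mul, rePer_apply]

theorem rePer_zsmul (n : ℤ) (f : CuspForm (Gamma0 N) 2) :
    rePer N (n • f) = n • rePer N f := by
  have h : n • f = ((n : ℝ) : ℂ) • f := by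
    rw [← Int.cast_smul_eq_zsmul ℂ n f]
    push_cast
    rfl
  rw [h, rePer_real_smul, Int.cast_smul_eq_zsmul]

theorem rePer_sum {ι : Type*} (s : Finset ι) (f : ι → CuspForm (Gamma0 N) 2) :
    rePer N (∑ i ∈ s, f i) = ∑ i ∈ s, rePer N (f i) := by
  classical
  induction s using Finset.induction_on with
  | empty => simp [rePer_zero]
  | insert a s ha ih => rw [Finset.sum_insert ha, Finset.sum_insert ha, rePer_add, ih]

/-- `rePer` is injective (S21). -/
theorem rePer_eq_zero {f : CuspForm (Gamma0 N) 2} (h : rePer N f = 0) : f = 0 := by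
  refine (Fermat.Agent.S21.period_conj_eq_zero N f (-f) fun γ => ?_).1
  have h1 : (periodMap N f (Additive.ofMul γ)).re = 0 := DFunLike.congr_fun h (Additive.ofMul γ)
  have h2 : periodMap N (-f) (Additive.ofMul γ) = -periodMap N f (Additive.ofMul γ) := by
    rw [← perLin_apply, map_neg]
    rfl
  rw [h2]
  apply Complex.ext
  · simp [h1]
  · simp

theorem rePer_injective : Function.Injective (rePer N) := by
  intro f g h
  have : rePer N (f + -g) = 0 := by rw [rePer_add, rePer_neg, h, add_neg_cancel]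
  have := rePer_eq_zero N this
  rwa [← sub_eq_add_neg, sub_eq_zero] at this

theorem rePer_parabolic (f : CuspForm (Gamma0 N) 2) : IsParabolicHom (Gamma0 N) (rePer N f) := by
  intro γ hγ
  have h := Fermat.Agent.S21.periodMap_mem_parabolicHoms N f γ hγ
  rw [rePer_apply, h]
  rfl

/-- `rePer` is onto the real parabolic homomorphisms (S21). -/
theorem rePer_surjective (ψ : Additive (Gamma0 N) →+ ℝ) (hψ : IsParabolicHom (Gamma0 N) ψ) :
    ∃ f : CuspForm (Gamma0 N) 2, rePer N f = ψ := by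
  obtain ⟨f, hf⟩ := Fermat.Agent.S21.re_period_surjective N ψ hψ
  exact ⟨f, AddMonoidHom.ext fun γ => hf (Additive.toMul γ)⟩

theorem rePer_heckeT {ℓ : ℕ} [Fact ℓ.Prime] (hℓN : ¬ ℓ ∣ N) (f : CuspForm (Gamma0 N) 2) :
    rePer N (CuspForm.heckeTLin 2 (Fact.out : ℓ.Prime) hℓN f) = heckeHom N hℓN ℝ (rePer N f) := by
  unfold rePer
  rw [← heckeHom_periodMap, heckeHom_comp]

/-! ### integer-valued homomorphisms -/

/-- An integer-valued real homomorphism comes from an integral one. -/
theorem exists_int_hom {G : Type*} [AddGroup G] (ψ : G →+ ℝ) (h : ∀ g, ∃ n : ℤ, ψ g = n) :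
    ∃ φ : G →+ ℤ, (Int.castAddHom ℝ).comp φ = ψ := by
  have hinj : Function.Injective (Int.castAddHom ℝ) := Int.cast_injective
  have hmem : ∀ g, ψ g ∈ (Int.castAddHom ℝ).range := fun g => by
    obtain ⟨n, hn⟩ := h g
    exact ⟨n, hn.symm⟩
  refine ⟨(AddMonoidHom.ofInjective hinj).symm.toAddMonoidHom.comp
    (ψ.codRestrict (Int.castAddHom ℝ).range hmem), AddMonoidHom.ext fun g => ?_⟩
  exact AddMonoidHom.apply_ofInjective_symm hinj ⟨ψ g, hmem g⟩

theorem castR_comp_injective {G : Type*} [AddGroup G] {h h' : G →+ ℤ}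
    (e : (Int.castAddHom ℝ).comp h = (Int.castAddHom ℝ).comp h') : h = h' := by
  refine AddMonoidHom.ext fun g => ?_
  have := DFunLike.congr_fun e g
  exact Int.cast_injective this

/-- The lattice of cusp forms with integral real periods. -/
def perLattice : Submodule ℤ (CuspForm (Gamma0 N) 2) where
  carrier := {f | ∀ γ : Additive (Gamma0 N), ∃ n : ℤ, rePer N f γ = n}
  zero_mem' := fun γ => ⟨0, by rw [rePer_zero]; simp⟩
  add_mem' := by
    intro f g hf hg γ
    obtain ⟨a, ha⟩ := hf γ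
    obtain ⟨b, hb⟩ := hg γ
    exact ⟨a + b, by rw [rePer_add, AddMonoidHom.add_apply, ha, hb]; push_cast; rfl⟩
  smul_mem' := by
    intro n f hf γ
    obtain ⟨a, ha⟩ := hf γ
    exact ⟨n * a, by rw [rePer_zsmul, AddMonoidHom.smul_apply, ha, zsmul_eq_mul]; push_cast; rfl⟩

theorem mem_perLattice_iff (f : CuspForm (Gamma0 N) 2) :
    f ∈ perLattice N ↔ ∀ γ : Additive (Gamma0 N), ∃ n : ℤ, rePer N f γ = n := Iff.rfl

theorem mem_perLattice_of_eq {f : CuspForm (Gamma0 N) 2} (h : Additive (Gamma0 N) →+ ℤ)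
    (e : (Int.castAddHom ℝ).comp h = rePer N f) : f ∈ perLattice N :=
  fun γ => ⟨h γ, (DFunLike.congr_fun e γ).symm⟩

/-- `T_ℓ` preserves the lattice. -/
theorem heckeT_mem_perLattice {ℓ : ℕ} (hℓ : ℓ.Prime) (hℓN : ¬ ℓ ∣ N) {f : CuspForm (Gamma0 N) 2}
    (hf : f ∈ perLattice N) : CuspForm.heckeTLin 2 hℓ hℓN f ∈ perLattice N := by
  have : Fact ℓ.Prime := ⟨hℓ⟩
  intro γ
  rw [rePer_heckeT N hℓN f]
  have h1 : heckeHom N hℓN ℝ (rePer N f) γ =
      ∑ x : OnePoint (ZMod ℓ), rePer N f (Additive.ofMul (conjRep N hℓN (Additive.toMul γ) x)) :=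
    rfl
  rw [h1]
  choose n hn using fun x : OnePoint (ZMod ℓ) =>
    hf (Additive.ofMul (conjRep N hℓN (Additive.toMul γ) x))
  exact ⟨∑ x, n x, by simp only [hn]; push_cast; rfl⟩

/-- `U_q` preserves the lattice. -/
theorem heckeU_mem_perLattice {q : ℕ} (hqN : q ∣ N) {f : CuspForm (Gamma0 N) 2}
    (hf : f ∈ perLattice N) : CuspForm.heckeULin 2 hqN f ∈ perLattice N := by
  have hq0 : q ≠ 0 := fun h => NeZero.ne N (Nat.eq_zero_of_zero_dvd (h ▸ hqN))
  have : NeZero q := ⟨hq0⟩
  intro γ'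
  let γ : Gamma0 N := Additive.toMul γ'
  show ∃ n : ℤ, rePer N _ (Additive.ofMul γ) = n
  have hγN : (N : ℤ) ∣ (γ : SL(2, ℤ)) 1 0 := gamma0_dvd N γ
  have hc : (q : ℤ) ∣ (γ : SL(2, ℤ)) 1 0 := (Int.natCast_dvd_natCast.mpr hqN).trans hγN
  choose g' hg'c hg'mul using fun x =>
    P2MW.S_ModularForm_heckeT_slash_eq_self_of_mem_Gamma0.ModularForm.HeckeSlashInvariance.heckeMatrix_mul_of_dvd
      (γ : SL(2, ℤ)) hc x
  have hg'mem : ∀ x, g' x ∈ Gamma0 N := fun x => by
    rw [Gamma0_mem, hg'c x]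
    push_cast
    rw [Gamma0_mem.mp γ.2, mul_zero]
  have key := periodMap_heckeU N hqN f γ (fun x => ⟨g' x, hg'mem x⟩)
    (affinePerm (γ : SL(2, ℤ)) ((ZMod.intCast_zmod_eq_zero_iff_dvd _ _).mpr hc))
    (fun x => hg'mul x)
  choose n hn using fun x : ZMod q => hf (Additive.ofMul (⟨g' x, hg'mem x⟩ : Gamma0 N))
  refine ⟨∑ x, n x, ?_⟩
  rw [rePer_apply, key, Complex.re_sum]
  push_cast
  exact Finset.sum_congr rfl fun x _ => hn x

/-- Every element of the Hecke algebra preserves the lattice. -/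
theorem heckeAlgebra_mem_perLattice (S : Set ℕ) (t : Module.End ℂ (CuspForm (Gamma0 N) 2))
    (ht : t ∈ CuspForm.heckeAlgebra N 2 S) {f : CuspForm (Gamma0 N) 2}
    (hf : f ∈ perLattice N) : t f ∈ perLattice N := by
  revert f
  unfold CuspForm.heckeAlgebra at ht
  induction ht using Algebra.adjoin_induction with
  | mem x hx =>
    intro f hf
    rcases hx with ⟨ℓ, hℓ, hℓN, -, rfl⟩ | ⟨q, hqN, -, -, rfl⟩
    · exact heckeT_mem_perLattice N hℓ hℓN hf
    · exact heckeU_mem_perLattice N hqN hf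
  | algebraMap r =>
    intro f hf
    have : (algebraMap ℤ (Module.End ℂ (CuspForm (Gamma0 N) 2)) r) f = r • f := by
      rw [Algebra.algebraMap_eq_smul_one, LinearMap.smul_apply, Module.End.one_apply]
    rw [this]
    exact (perLattice N).smul_mem r hf
  | add x y _ _ hx hy =>
    intro f hf
    exact (perLattice N).add_mem (hx hf) (hy hf)
  | mul x y _ _ hx hy =>
    intro f hf
    exact hx (hy hf)

end Fermat.Agent.S30.Betti
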