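import Fermat.Agent.S30.Betti.Lattice

/-!
# Faithful Betti realization of the Hecke algebra

`exists_betti`: for every `S` there is an injective ring homomorphism
`b : heckeAlgebra N 2 S →+* End_ℤ (Hom_par(Γ₀(N), ℤ))` with `b (T_ℓ) = heckeHom` (coset formula).
-/

set_option autoImplicit false

open CongruenceSubgroup UpperHalfPlane ModularCurve ModularCurve.Period
open scoped MatrixGroups
open P2MW.S_ModularForm_heckeT_slash_eq_self_of_mem_Gamma0.ModularForm.HeckeSlashInvariance

namespace Fermat.Agent.S30.Betti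

/-! ### real homomorphisms of a finitely generated group are real combinations of integral ones -/

theorem real_hom_decomp {G : Type*} [Group G] [Group.FG G] (ψ : Additive G →+ ℝ) :
    ∃ (n : ℕ) (c : Fin n → ℝ) (h : Fin n → Additive G →+ ℤ),
      (∀ i g, ψ g = 0 → h i g = 0) ∧ ψ = ∑ i, c i • (Int.castAddHom ℝ).comp (h i) := by
  classical
  obtain ⟨S, hS, hSfin⟩ := Group.fg_iff.mp (inferInstance : Group.FG G)
  let V : Submodule ℚ ℝ := Submodule.span ℚ ((fun s : G => ψ (Additive.ofMul s)) '' S)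
  have : FiniteDimensional ℚ V := FiniteDimensional.span_of_finite ℚ (hSfin.image _)
  have hV : ∀ g : G, ψ (Additive.ofMul g) ∈ V := by
    intro g
    have hg : g ∈ Subgroup.closure S := hS ▸ Subgroup.mem_top g
    induction hg using Subgroup.closure_induction with
    | mem x hx => exact Submodule.subset_span ⟨x, hx, rfl⟩
    | one => rw [ofMul_one, map_zero]; exact V.zero_mem
    | mul x y _ _ hx hy => rw [ofMul_mul, map_add]; exact V.add_mem hx hy
    | inv x _ hx => rw [ofMul_inv, map_neg]; exact V.neg_mem hx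
  let b := Module.finBasis ℚ V
  let ψV : Additive G →+ V := ψ.codRestrict V.toAddSubgroup (fun g => hV (Additive.toMul g))
  let ψi : Fin (Module.finrank ℚ V) → Additive G →+ ℚ := fun i =>
    (b.coord i).toAddMonoidHom.comp ψV
  have hsum : ∀ g : Additive G, ψ g = ∑ i, (ψi i g : ℝ) * (b i : ℝ) := by
    intro g
    have h1 := congrArg (V.subtype) (b.sum_repr (ψV g))
    rw [map_sum] at h1
    have h2 : V.subtype (ψV g) = ψ g := rfl
    rw [h2] at h1
    rw [← h1]
    refine Finset.sum_congr rfl fun i _ => ?_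
    rw [map_smul, Submodule.subtype_apply, Rat.smul_def]
    rfl
  -- clearing denominators
  have hden : ∀ i, ∃ m : ℕ, 0 < m ∧ ∀ g : Additive G, ∃ z : ℤ, ψi i g * (m : ℚ) = z := by
    intro i
    refine ⟨∏ s ∈ hSfin.toFinset, (ψi i (Additive.ofMul s)).den,
      Finset.prod_pos fun s _ => Rat.den_pos _, fun g => ?_⟩
    have hg : Additive.toMul g ∈ Subgroup.closure S := hS ▸ Subgroup.mem_top _
    set m : ℕ := ∏ s ∈ hSfin.toFinset, (ψi i (Additive.ofMul s)).den with hm
    have key : ∀ x : G, x ∈ Subgroup.closure S →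
        ∃ z : ℤ, ψi i (Additive.ofMul x) * (m : ℚ) = z := by
      intro x hx
      induction hx using Subgroup.closure_induction with
      | mem x hx =>
        obtain ⟨k, hk⟩ : (ψi i (Additive.ofMul x)).den ∣ m :=
          Finset.dvd_prod_of_mem _ (hSfin.mem_toFinset.mpr hx)
        refine ⟨(ψi i (Additive.ofMul x)).num * k, ?_⟩
        rw [hk]
        push_cast
        rw [← mul_assoc, Rat.mul_den_eq_num]
      | one => exact ⟨0, by rw [ofMul_one, map_zero]; simp⟩
      | mul x y _ _ hx hy =>
        obtain ⟨a, ha⟩ := hx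
        obtain ⟨c, hc⟩ := hy
        exact ⟨a + c, by rw [ofMul_mul, map_add, add_mul, ha, hc]; push_cast; rfl⟩
      | inv x _ hx =>
        obtain ⟨a, ha⟩ := hx
        exact ⟨-a, by rw [ofMul_inv, map_neg, neg_mul, ha]; push_cast; rfl⟩
    exact key _ hg
  choose m hm0 hm using hden
  -- the integral homomorphisms
  have hint : ∀ i, ∃ h : Additive G →+ ℤ,
      (Int.castAddHom ℝ).comp h = (m i : ℝ) • (Rat.castHom ℝ).toAddMonoidHom.comp (ψi i) := by
    intro i
    refine exists_int_hom _ fun g => ?_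
    obtain ⟨z, hz⟩ := hm i g
    refine ⟨z, ?_⟩
    have : ((ψi i g * (m i : ℚ) : ℚ) : ℝ) = (z : ℝ) := by rw [hz]; simp
    rw [AddMonoidHom.smul_apply, smul_eq_mul, ← this]
    push_cast
    rw [mul_comm]
    rfl
  choose h hh using hint
  have hval : ∀ i (g : Additive G), ((h i g : ℤ) : ℝ) = (m i : ℝ) * (ψi i g : ℝ) := fun i g =>
    DFunLike.congr_fun (hh i) g
  refine ⟨Module.finrank ℚ V, fun i => (b i : ℝ) / (m i : ℝ), h, fun i g hg => ?_, ?_⟩
  · have h0 : ψV g = 0 := Subtype.ext hg
    have h1 : ψi i g = 0 := by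
      show b.coord i (ψV g) = 0
      rw [h0, map_zero]
    have := hval i g
    rw [h1] at this
    simp only [Rat.cast_zero, mul_zero] at this
    exact_mod_cast this
  · refine AddMonoidHom.ext fun g => ?_
    rw [hsum g, AddMonoidHom.finsetSum_apply]
    refine Finset.sum_congr rfl fun i _ => ?_
    have hmi : (m i : ℝ) ≠ 0 := by exact_mod_cast (hm0 i).ne'
    rw [AddMonoidHom.smul_apply, AddMonoidHom.comp_apply]
    show _ = (b i : ℝ) / (m i : ℝ) * ((h i g : ℤ) : ℝ)
    rw [hval i g]
    field_simp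
    exact mul_comm _ _

variable (N : ℕ) [NeZero N]

instance gamma0_groupFG : Group.FG (Gamma0 N) :=
  (Group.fg_iff_subgroup_fg _).mpr (Fermat.Agent.S22.cocycle_gamma0_fg N)

/-- The lattice of forms with integral real periods spans `S₂`. -/
theorem span_perLattice :
    Submodule.span ℂ (perLattice N : Set (CuspForm (Gamma0 N) 2)) = ⊤ := by
  rw [eq_top_iff]
  intro f _
  obtain ⟨n, c, h, hpar, hψ⟩ := real_hom_decomp (rePer N f)
  have hp : ∀ i, IsParabolicHom (Gamma0 N) (h i) := fun i γ hγ =>
    hpar i _ (rePer_parabolic N f γ hγ)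
  have hpR : ∀ i, IsParabolicHom (Gamma0 N) ((Int.castAddHom ℝ).comp (h i)) := by
    intro i γ hγ
    show ((h i (Additive.ofMul γ) : ℤ) : ℝ) = 0
    rw [hp i γ hγ]
    simp
  choose g hg using fun i => rePer_surjective N ((Int.castAddHom ℝ).comp (h i)) (hpR i)
  have hgL : ∀ i, g i ∈ perLattice N := fun i => mem_perLattice_of_eq N (h i) (hg i).symm
  have hf : f = ∑ i, ((c i : ℝ) : ℂ) • g i := by
    apply rePer_injective N
    rw [rePer_sum, hψ]
    refine Finset.sum_congr rfl fun i _ => ?_
    rw [rePer_real_smul, hg]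
  rw [hf]
  exact Submodule.sum_mem _ fun i _ => Submodule.smul_mem _ _ (Submodule.subset_span (hgL i))

/-! ### the equivalence `perLattice ≃ H_ℤ` -/

/-- The integral period homomorphism of a form in the lattice. -/
noncomputable def intPer (f : perLattice N) : Additive (Gamma0 N) →+ ℤ :=
  Classical.choose (exists_int_hom (rePer N f) f.2)

theorem castR_intPer (f : perLattice N) :
    (Int.castAddHom ℝ).comp (intPer N f) = rePer N f :=
  Classical.choose_spec (exists_int_hom (rePer N f) f.2)

theorem intPer_parabolic (f : perLattice N) : IsParabolicHom (Gamma0 N) (intPer N f) := by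
  intro γ hγ
  have h1 := DFunLike.congr_fun (castR_intPer N f) (Additive.ofMul γ)
  rw [rePer_parabolic N f γ hγ] at h1
  have h1' : ((intPer N f (Additive.ofMul γ) : ℤ) : ℝ) = 0 := h1
  exact_mod_cast h1'

/-- `perLattice N → H_ℤ` as an additive map. -/
noncomputable def latHom : perLattice N →+ parabolicHoms ℤ (Gamma0 N) ℤ where
  toFun f := ⟨intPer N f, intPer_parabolic N f⟩
  map_zero' := Subtype.ext (castR_comp_injective (by
    rw [castR_intPer]
    show rePer N 0 = (Int.castAddHom ℝ).comp 0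
    rw [rePer_zero, AddMonoidHom.comp_zero]))
  map_add' f g := Subtype.ext (castR_comp_injective (by
    rw [castR_intPer]
    show rePer N (f + g) = (Int.castAddHom ℝ).comp (intPer N f + intPer N g)
    rw [AddMonoidHom.comp_add, castR_intPer, castR_intPer, rePer_add]))

theorem castR_latHom (f : perLattice N) :
    (Int.castAddHom ℝ).comp (latHom N f : Additive (Gamma0 N) →+ ℤ) = rePer N f :=
  castR_intPer N f

theorem latHom_bijective : Function.Bijective (latHom N) := by
  constructor
  · rw [injective_iff_map_eq_zero]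
    intro f hf
    have h1 := castR_latHom N f
    rw [hf] at h1
    have h2 : rePer N (f : CuspForm (Gamma0 N) 2) = 0 := by
      rw [← h1]
      exact AddMonoidHom.comp_zero _
    exact Subtype.ext (rePer_eq_zero N h2)
  · intro h
    have hpR : IsParabolicHom (Gamma0 N)
        ((Int.castAddHom ℝ).comp (h : Additive (Gamma0 N) →+ ℤ)) := by
      intro γ hγ
      show (((h : Additive (Gamma0 N) →+ ℤ) (Additive.ofMul γ) : ℤ) : ℝ) = 0
      rw [h.2 γ hγ]
      simp
    obtain ⟨f, hf⟩ := rePer_surjective N _ hpR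
    refine ⟨⟨f, mem_perLattice_of_eq N _ hf.symm⟩, Subtype.ext (castR_comp_injective ?_)⟩
    rw [castR_latHom, hf]

/-- `perLattice N ≃ₗ[ℤ] H_ℤ`. -/
noncomputable def latEquiv : perLattice N ≃ₗ[ℤ] parabolicHoms ℤ (Gamma0 N) ℤ :=
  (AddEquiv.ofBijective (latHom N) (latHom_bijective N)).toIntLinearEquiv

theorem castR_latEquiv (f : perLattice N) :
    (Int.castAddHom ℝ).comp (latEquiv N f : Additive (Gamma0 N) →+ ℤ) = rePer N f :=
  castR_latHom N f

/-! ### the Hecke algebra acting on the lattices -/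

variable (S : Set ℕ)

/-- Restriction of the Hecke algebra to the period lattice. -/
noncomputable def restrHom : CuspForm.heckeAlgebra N 2 S →+* Module.End ℤ (perLattice N) where
  toFun t := ((t : Module.End ℂ (CuspForm (Gamma0 N) 2)).toAddMonoidHom.toIntLinearMap).restrict
    (fun _ hf => heckeAlgebra_mem_perLattice N S t.1 t.2 hf)
  map_one' := LinearMap.ext fun _ => Subtype.ext rfl
  map_mul' _ _ := LinearMap.ext fun _ => Subtype.ext rfl
  map_zero' := LinearMap.ext fun _ => Subtype.ext rfl
  map_add' _ _ := LinearMap.ext fun _ => Subtype.ext rfl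

theorem restrHom_apply (t : CuspForm.heckeAlgebra N 2 S) (f : perLattice N) :
    ((restrHom N S t f : perLattice N) : CuspForm (Gamma0 N) 2) =
      (t : Module.End ℂ (CuspForm (Gamma0 N) 2)) f := rfl

/-- The Betti realization of the Hecke algebra. -/
noncomputable def betti :
    CuspForm.heckeAlgebra N 2 S →+* Module.End ℤ (parabolicHoms ℤ (Gamma0 N) ℤ) :=
  ((latEquiv N).conjRingEquiv : Module.End ℤ (perLattice N) ≃+* _).toRingHom.comp (restrHom N S)

theorem betti_apply (t : CuspForm.heckeAlgebra N 2 S) (h : parabolicHoms ℤ (Gamma0 N) ℤ) :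
    betti N S t h = latEquiv N (restrHom N S t ((latEquiv N).symm h)) := rfl

theorem betti_injective : Function.Injective (betti N S) := by
  rw [injective_iff_map_eq_zero]
  intro t ht
  have h1 : restrHom N S t = 0 := by
    have : ((latEquiv N).conjRingEquiv : Module.End ℤ (perLattice N) ≃+* _) (restrHom N S t) = 0 :=
      ht
    exact (EmbeddingLike.map_eq_zero_iff (f := (latEquiv N).conjRingEquiv)).mp this
  have h2 : ∀ f ∈ perLattice N, (t : Module.End ℂ (CuspForm (Gamma0 N) 2)) f = 0 := by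
    intro f hf
    have := congrArg (fun T : Module.End ℤ (perLattice N) =>
      ((T ⟨f, hf⟩ : perLattice N) : CuspForm (Gamma0 N) 2)) h1
    exact this
  apply Subtype.ext
  apply LinearMap.ext_on_range (v := fun f : perLattice N => (f : CuspForm (Gamma0 N) 2))
  · rw [Subtype.range_coe_subtype]
    exact span_perLattice N
  · intro f
    rw [h2 f f.2]
    rfl

/-- `betti (T_ℓ)` is the coset-formula Hecke operator on `Hom(Γ₀(N), ℤ)`. -/
theorem betti_T {ℓ : ℕ} [Fact ℓ.Prime] (hℓN : ¬ ℓ ∣ N) (hℓS : ℓ ∉ S)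
    (h : parabolicHoms ℤ (Gamma0 N) ℤ) :
    ((betti N S (CuspForm.heckeAlgebra.T (Fact.out : ℓ.Prime) hℓN hℓS) h :
        parabolicHoms ℤ (Gamma0 N) ℤ) : Additive (Gamma0 N) →+ ℤ) =
      heckeHom N hℓN ℤ (h : Additive (Gamma0 N) →+ ℤ) := by
  apply castR_comp_injective
  rw [betti_apply, castR_latEquiv, restrHom_apply, CuspForm.heckeAlgebra.coe_T, rePer_heckeT,
    ← castR_latEquiv, LinearEquiv.apply_symm_apply, heckeHom_comp]

/-- **Faithful Betti realization of the Hecke algebra.** -/
theorem exists_betti :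
    ∃ b : CuspForm.heckeAlgebra N 2 S →+* Module.End ℤ (parabolicHoms ℤ (Gamma0 N) ℤ),
      Function.Injective b ∧
      ∀ (ℓ : ℕ) (_ : Fact ℓ.Prime) (hℓN : ¬ ℓ ∣ N) (hℓS : ℓ ∉ S)
        (h : parabolicHoms ℤ (Gamma0 N) ℤ),
        ((b (CuspForm.heckeAlgebra.T (Fact.out : ℓ.Prime) hℓN hℓS) h :
          parabolicHoms ℤ (Gamma0 N) ℤ) : Additive (Gamma0 N) →+ ℤ) =
        heckeHom N hℓN ℤ (h : Additive (Gamma0 N) →+ ℤ) :=
  ⟨betti N S, betti_injective N S, fun _ _ hℓN hℓS h => betti_T N S hℓN hℓS h⟩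

end Fermat.Agent.S30.Betti
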