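import Fermat.Agent.S22.Hecke
import Fermat.Agent.S21.Injective
import Fermat.Agent.S21.Primitive
import Fermat.Agent.S21.Reduction

/-!
# Hecke operators on periods of weight two cusp forms

For `γ ∈ Γ₀(N)` and `α_x γ = γ'_x α_{π x}` (Hecke coset representatives `α_x`):
`periodMap (T f) γ = ∑ x, periodMap f γ'_x`.
-/

set_option autoImplicit false

open CongruenceSubgroup UpperHalfPlane ModularCurve ModularCurve.Period
open scoped MatrixGroups ModularForm Manifold Real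
open P2MW.S_ModularForm_heckeT_slash_eq_self_of_mem_Gamma0.ModularForm.HeckeSlashInvariance

namespace Fermat.Agent.S30.Betti

variable (N : ℕ) [NeZero N]

/-- The Eichler integral of S22 is `2πi` times the equivariant primitive of S21. -/
theorem E_eq_of_hasPrim {f : CuspForm (Gamma0 N) 2} {F : ℍ → ℂ}
    (hF : HasEquivariantPrimitive N f F) :
    Fermat.Agent.S22.E N 0 f = (2 * π * Complex.I : ℂ) • F := by
  have hc : (2 * π * Complex.I : ℂ) ≠ 0 := Complex.two_pi_I_ne_zero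
  have hmd : MDiff F := Fermat.Agent.S21.Injective.mdiff_of_hasEquivariantPrimitive hF
  show Fermat.Agent.S22.eichler (0 + 1) ⇑f = _
  refine Fermat.Agent.S22.eichler_eq (hmd.const_smul _) ?_ ?_
  · have h0 : IsZeroAtImInfty F := hF.2.1
    exact h0.smul _
  · funext z
    show Derivative.normalizedDerivOfComplex ((2 * π * Complex.I : ℂ) • F) z = f z
    unfold Derivative.normalizedDerivOfComplex
    have h1 : HasDerivAt (((2 * π * Complex.I : ℂ) • F) ∘ ofComplex)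
        ((2 * π * Complex.I : ℂ) • f z) (z : ℂ) := (hF.1 z).const_smul _
    rw [h1.deriv, smul_eq_mul, ← mul_assoc, inv_mul_cancel₀ hc, one_mul]

/-- Periods via the Eichler integral. -/
theorem E_smul_sub (f : CuspForm (Gamma0 N) 2) (γ : Gamma0 N) (z : ℍ) :
    Fermat.Agent.S22.E N 0 f ((γ : SL(2, ℤ)) • z) - Fermat.Agent.S22.E N 0 f z =
      (2 * π * Complex.I : ℂ) * periodMap N f (Additive.ofMul γ) := by
  obtain ⟨F, hF⟩ := Fermat.Agent.S21.exists_primitive N f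
  rw [E_eq_of_hasPrim N hF, Fermat.Agent.S21.periodMap_eq hF]
  show (2 * π * Complex.I : ℂ) * F ((γ : SL(2, ℤ)) • z) - (2 * π * Complex.I : ℂ) * F z = _
  rw [IsEquivariantPrimitive.periodHom_apply, ← hF.2.2.1.sub_eq_period γ z]
  ring

theorem slash_zero_apply {α : GL (Fin 2) ℝ} {d : ℝ} (hd : 0 < d) (hdet : α.val.det = d)
    (G : ℍ → ℂ) (z : ℍ) : (G ∣[(0 : ℤ)] α) z = (d : ℂ)⁻¹ * G (α • z) := by
  have hdet' : α.det.val = d := by
    rw [Matrix.GeneralLinearGroup.val_det_apply]; exact hdet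
  rw [ModularForm.slash_apply]
  simp [UpperHalfPlane.σ, hdet', hd, abs_of_pos hd]
  ring

/-- General form of the Hecke relation for periods. -/
theorem periodMap_hecke_general {ι : Type*} [Fintype ι] (α : ι → GL (Fin 2) ℝ) (ℓ : ℕ)
    (hℓ : 0 < ℓ) (hdet : ∀ x, (α x).val.det = ℓ)
    (f g : CuspForm (Gamma0 N) 2)
    (hE : Fermat.Agent.S22.E N 0 g =
      ((ℓ : ℂ) ^ (0 + 1)) • ∑ x, Fermat.Agent.S22.E N 0 f ∣[(-((0 : ℕ) : ℤ))] α x)
    (γ : Gamma0 N) (γ' : ι → Gamma0 N) (π' : Equiv.Perm ι)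
    (hmul : ∀ x, α x * Matrix.SpecialLinearGroup.mapGL ℝ (γ : SL(2, ℤ)) =
      Matrix.SpecialLinearGroup.mapGL ℝ (γ' x : SL(2, ℤ)) * α (π' x)) :
    periodMap N g (Additive.ofMul γ) = ∑ x, periodMap N f (Additive.ofMul (γ' x)) := by
  have hc : (2 * π * Complex.I : ℂ) ≠ 0 := Complex.two_pi_I_ne_zero
  have hℓC : (ℓ : ℂ) ≠ 0 := by exact_mod_cast hℓ.ne'
  have hEz : ∀ z : ℍ, Fermat.Agent.S22.E N 0 g z = ∑ x, Fermat.Agent.S22.E N 0 f (α x • z) := by
    intro z
    rw [hE]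
    simp only [Nat.cast_zero, neg_zero, zero_add, pow_one, Pi.smul_apply, Finset.sum_apply,
      smul_eq_mul]
    rw [Finset.mul_sum]
    refine Finset.sum_congr rfl fun x _ => ?_
    rw [slash_zero_apply (d := (ℓ : ℝ)) (by exact_mod_cast hℓ) (hdet x)]
    push_cast
    rw [← mul_assoc, mul_inv_cancel₀ hℓC, one_mul]
  have key := E_smul_sub N g γ UpperHalfPlane.I
  rw [hEz, hEz] at key
  have h1 : ∀ x, Fermat.Agent.S22.E N 0 f (α x • ((γ : SL(2, ℤ)) • UpperHalfPlane.I)) =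
      Fermat.Agent.S22.E N 0 f (α (π' x) • UpperHalfPlane.I) +
        (2 * π * Complex.I : ℂ) * periodMap N f (Additive.ofMul (γ' x)) := by
    intro x
    have h2 : α x • ((γ : SL(2, ℤ)) • UpperHalfPlane.I) =
        ((γ' x : Gamma0 N) : SL(2, ℤ)) • (α (π' x) • UpperHalfPlane.I) := by
      rw [ModularGroup.sl_moeb, ModularGroup.sl_moeb, ← mul_smul, ← mul_smul]
      exact congrArg (· • UpperHalfPlane.I) (hmul x)
    rw [h2, ← E_smul_sub N f (γ' x) (α (π' x) • UpperHalfPlane.I)]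
    ring
  simp only [h1] at key
  rw [Finset.sum_add_distrib, Equiv.sum_comp π' (fun x => Fermat.Agent.S22.E N 0 f (α x • UpperHalfPlane.I)),
    add_sub_cancel_left, ← Finset.mul_sum] at key
  exact (mul_left_cancel₀ hc key).symm

theorem periodMap_heckeT {ℓ : ℕ} [NeZero ℓ] (hℓ : ℓ.Prime) (hℓN : ¬ ℓ ∣ N) (f : CuspForm (Gamma0 N) 2)
    (γ : Gamma0 N) (γ' : OnePoint (ZMod ℓ) → Gamma0 N) (π' : Equiv.Perm (OnePoint (ZMod ℓ)))
    (hmul : ∀ x, heckeRep ℓ x * Matrix.SpecialLinearGroup.mapGL ℝ (γ : SL(2, ℤ)) =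
      Matrix.SpecialLinearGroup.mapGL ℝ (γ' x : SL(2, ℤ)) * heckeRep ℓ (π' x)) :
    periodMap N (CuspForm.heckeTLin 2 hℓ hℓN f) (Additive.ofMul γ) =
      ∑ x, periodMap N f (Additive.ofMul (γ' x)) := by
  exact periodMap_hecke_general N (heckeRep ℓ) ℓ hℓ.pos
    (fun x => Fermat.Agent.S22.heckeRep_val_det hℓ.ne_zero x) f _
    (Fermat.Agent.S22.E_heckeT_onePoint N 0 hℓ hℓN f) γ γ' π' hmul

theorem periodMap_heckeU {q : ℕ} [NeZero q] (hqN : q ∣ N) (f : CuspForm (Gamma0 N) 2)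
    (γ : Gamma0 N) (γ' : ZMod q → Gamma0 N) (π' : Equiv.Perm (ZMod q))
    (hmul : ∀ x : ZMod q, ModularForm.heckeMatrix q x.val *
        Matrix.SpecialLinearGroup.mapGL ℝ (γ : SL(2, ℤ)) =
      Matrix.SpecialLinearGroup.mapGL ℝ (γ' x : SL(2, ℤ)) * ModularForm.heckeMatrix q (π' x).val) :
    periodMap N (CuspForm.heckeULin 2 hqN f) (Additive.ofMul γ) =
      ∑ x, periodMap N f (Additive.ofMul (γ' x)) :=
  periodMap_hecke_general N (fun x : ZMod q => ModularForm.heckeMatrix q x.val) q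
    (Nat.pos_of_ne_zero (NeZero.ne q))
    (fun x => Fermat.Agent.S22.heckeMatrix_val_det (NeZero.ne q) x.val) f _
    (Fermat.Agent.S22.E_heckeU_zmod N 0 hqN f) γ γ' π' hmul

end Fermat.Agent.S30.Betti
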